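import Fermat.Agent.LT.T6.H847.EllRamSpec

/-!
# Row LT, tower T6, sub-leaf T6.14a `EllReduceC` (helper826), OFF-MAIN

`ellReduceC826 : Fermat.Agent.LT.T6.H847.EllReduceC`, VERBATIM against
`LT/T6/H847/EllRamSpec.lean` (helper847, sha256 `3578c164…`) on `LT/T6/Spec.lean`
(helper22, sha256 `89f8f8b8…`).  Mathlib + these two files only.

Route (as in the doc-comment of the Prop):
* `γ` has no eigenvalue in `k`, so `γ₁₀ ≠ 0` and the centraliser of `γ` is `k + k γ`
  (`comm_entries826`); the `t` of `HasRamUnif` is not scalar since `ord det t = 1` is odd, so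
  `t₁₀ ≠ 0` and `γ = α + β t`, `β ≠ 0`;
* with `P = [e₁ | t e₁]`: `t P = P Π`, `Π = embMat τ ν 0 1` the companion matrix of
  `X² - τ X + ν`, `τ = tr t`, `ν = det t`; hence `γ P = P (embMat τ ν α β)`;
* `v τ < 1`: otherwise `X² - τ X + ν` has a root in `k` (`exists_root826`: the iteration
  `Y ↦ Y² + ν/τ²` converges, the ONLY use of completeness), which gives an eigenvalue of `γ`;
* `N(x⁻¹ δ s(x)) = x⁻¹ N(δ) sˡ(x)` (`twN_twConj826`), `sˡ = 1`, so `δ` may be moved to `δ₀` with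
  `N δ₀ = γ₀`; `δ₀ s(N δ₀) = N(δ₀) sˡ(δ₀)` (`twN_succ826`) shows that `δ₀` commutes with `γ₀`,
  hence `δ₀ = d₀ + d₁ Π` (`comm_entries826` again).
-/

set_option autoImplicit false

open scoped Matrix

noncomputable section

namespace Fermat.Agent.LT.T6.H826

open Fermat.Agent.LT.T6 Fermat.Agent.LT.T6.H847

/-! ## 1. The twisted norm in a group -/

section Group

variable {Γ : Type} [Group Γ]

/-- The other recursion of the twisted norm: `N_{n+1} δ = N_n δ · sⁿ(δ)`. -/
theorem twN_succ826 (s : Γ →* Γ) (n : ℕ) (δ : Γ) :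
    twN s (n + 1) δ = twN s n δ * s^[n] δ := by
  induction n with
  | zero => simp [twN]
  | succ n ih =>
    have h2 : twN s (n + 1) δ = δ * s (twN s n δ) := rfl
    calc twN s (n + 1 + 1) δ = δ * s (twN s (n + 1) δ) := rfl
      _ = δ * s (twN s n δ * s^[n] δ) := by rw [ih]
      _ = δ * s (twN s n δ) * s (s^[n] δ) := by rw [map_mul, mul_assoc]
      _ = twN s (n + 1) δ * s^[n + 1] δ := by rw [← h2, Function.iterate_succ_apply']

/-- `N_n(x⁻¹ δ s(x)) = x⁻¹ N_n(δ) sⁿ(x)`. -/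
theorem twN_twConj826 (s : Γ →* Γ) (n : ℕ) (δ x : Γ) :
    twN s n (x⁻¹ * δ * s x) = x⁻¹ * twN s n δ * s^[n] x := by
  induction n with
  | zero => simp [twN]
  | succ n ih =>
    have h1 : twN s (n + 1) (x⁻¹ * δ * s x) = (x⁻¹ * δ * s x) * s (twN s n (x⁻¹ * δ * s x)) := rfl
    have h2 : twN s (n + 1) δ = δ * s (twN s n δ) := rfl
    rw [h1, ih, h2, Function.iterate_succ_apply']
    simp only [map_mul, map_inv]
    group

end Group

/-! ## 2. The action of a ring automorphism on `GL₂` -/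

section GlAut

variable {R : Type} [CommRing R]

theorem glAut_apply826 (s : R ≃+* R) (g : GL (Fin 2) R) (a b : Fin 2) :
    (glAut s g : Matrix (Fin 2) (Fin 2) R) a b = s ((g : Matrix (Fin 2) (Fin 2) R) a b) := by
  unfold glAut
  rw [Matrix.GeneralLinearGroup.map_apply]
  rfl

theorem glAut_iterate_apply826 (s : R ≃+* R) (n : ℕ) (g : GL (Fin 2) R) (a b : Fin 2) :
    (((glAut s)^[n] g : GL (Fin 2) R) : Matrix (Fin 2) (Fin 2) R) a b
      = (s ^ n) ((g : Matrix (Fin 2) (Fin 2) R) a b) := by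
  induction n with
  | zero => simp
  | succ n ih =>
    rw [Function.iterate_succ_apply', glAut_apply826, ih, pow_succ']
    rfl

theorem glAut_iterate_eq826 (s : R ≃+* R) (l : ℕ) (h : ∀ y : R, (s ^ l) y = y)
    (g : GL (Fin 2) R) : (glAut s)^[l] g = g := by
  apply Matrix.GeneralLinearGroup.ext
  intro a b
  rw [glAut_iterate_apply826, h]

theorem glAut_map826 {k : Type} [CommRing k] (i : k →+* R) (s : R ≃+* R)
    (h : ∀ x : k, s (i x) = i x) (g : GL (Fin 2) k) :
    glAut s (Matrix.GeneralLinearGroup.map i g) = Matrix.GeneralLinearGroup.map i g := by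
  apply Matrix.GeneralLinearGroup.ext
  intro a b
  rw [glAut_apply826, Matrix.GeneralLinearGroup.map_apply, h]

end GlAut

/-! ## 3. Linear algebra of `2 × 2` matrices over a field -/

section Linear

variable {F : Type} [Field F]

/-- The centraliser of a matrix `M` with `M₁₀ ≠ 0` is `F + F M`: entries of a commuting `X`. -/
theorem comm_entries826 (M X : Matrix (Fin 2) (Fin 2) F) (h10 : M 1 0 ≠ 0)
    (hc : X * M = M * X) :
    X 0 1 = X 1 0 / M 1 0 * M 0 1 ∧ X 1 1 = X 0 0 + X 1 0 / M 1 0 * (M 1 1 - M 0 0) := by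
  have e00 := congrFun (congrFun hc 0) 0
  have e10 := congrFun (congrFun hc 1) 0
  simp only [Matrix.mul_apply, Fin.sum_univ_two] at e00 e10
  constructor
  · field_simp
    linear_combination e00
  · field_simp
    linear_combination e10

/-- A matrix commuting with `embMat τ ν α β`, `β ≠ 0`, is `embMat τ ν d₀ d₁`. -/
theorem comm_embMat826 (τ ν α β : F) (hβ : β ≠ 0) (X : Matrix (Fin 2) (Fin 2) F)
    (hc : X * embMat τ ν α β = embMat τ ν α β * X) : X = embMat τ ν (X 0 0) (X 1 0) := by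
  have h10 : (embMat τ ν α β) 1 0 ≠ 0 := by simpa [embMat] using hβ
  obtain ⟨h1, h2⟩ := comm_entries826 _ X h10 hc
  simp only [embMat, Matrix.of_apply, Matrix.cons_val', Matrix.cons_val_zero,
    Matrix.cons_val_one, Matrix.cons_val_fin_one] at h1 h2
  ext a b
  fin_cases a <;> fin_cases b
  · simp [embMat]
  · simp only [embMat, Fin.zero_eta, Fin.mk_one, Matrix.of_apply, Matrix.cons_val', Matrix.cons_val_zero,
      Matrix.cons_val_one, Matrix.cons_val_fin_one]
    rw [h1]; field_simp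
  · simp [embMat]
  · simp only [embMat, Fin.mk_one, Matrix.of_apply, Matrix.cons_val', Matrix.cons_val_one,
      Matrix.cons_val_fin_one]
    rw [h2]; field_simp; ring

end Linear

/-! ## 4. The root lemma (the only use of completeness) -/

section Root

open Filter Topology

/-- In `ℤᵐ⁰`, `x < 1` implies `x ≤ exp (-1)`. -/
theorem le_exp_neg_one826 {x : Γ₀} (h : x < 1) : x ≤ WithZero.exp (-1 : ℤ) := by
  by_cases hx : x = 0
  · rw [hx]; exact zero_le
  · rw [← WithZero.exp_log hx] at h ⊢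
    rw [← WithZero.exp_zero, WithZero.exp_lt_exp] at h
    rw [WithZero.exp_le_exp]
    omega

variable {k : Type} [Field k] [Valued k Γ₀]

/-- The iteration `Y ↦ Y² + c` from `0`. -/
def rootSeq826 (c : k) : ℕ → k
  | 0 => 0
  | (n + 1) => (rootSeq826 c n) ^ 2 + c

theorem rootSeq_val826 (c : k) (hc : Valued.v c < 1) (n : ℕ) :
    Valued.v (rootSeq826 c n) ≤ Valued.v c := by
  induction n with
  | zero => simp [rootSeq826]
  | succ n ih =>
    show Valued.v ((rootSeq826 c n) ^ 2 + c) ≤ Valued.v c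
    refine le_trans (Valuation.map_add _ _ _) (max_le ?_ le_rfl)
    rw [Valuation.map_pow, pow_two]
    calc Valued.v (rootSeq826 c n) * Valued.v (rootSeq826 c n)
        ≤ Valued.v c * 1 := mul_le_mul' ih (le_trans ih hc.le)
      _ = Valued.v c := mul_one _

theorem rootSeq_step826 (c : k) (hc : Valued.v c < 1) (n : ℕ) :
    Valued.v (rootSeq826 c (n + 1) - rootSeq826 c n) ≤ Valued.v c ^ (n + 1) := by
  induction n with
  | zero => simp [rootSeq826]
  | succ n ih =>
    have h1 : rootSeq826 c (n + 1 + 1) - rootSeq826 c (n + 1)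
        = (rootSeq826 c (n + 1) - rootSeq826 c n) * (rootSeq826 c (n + 1) + rootSeq826 c n) := by
      show (rootSeq826 c (n + 1)) ^ 2 + c - ((rootSeq826 c n) ^ 2 + c) = _
      ring
    rw [h1, Valuation.map_mul, pow_succ (Valued.v c) (n + 1)]
    refine mul_le_mul' ih ?_
    exact le_trans (Valuation.map_add _ _ _)
      (max_le (rootSeq_val826 c hc _) (rootSeq_val826 c hc _))

theorem rootSeq_diff826 (c : k) (hc : Valued.v c < 1) (n m : ℕ) (h : n ≤ m) :
    Valued.v (rootSeq826 c m - rootSeq826 c n) ≤ Valued.v c ^ (n + 1) := by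
  induction m, h using Nat.le_induction with
  | base => simp
  | succ m hm ih =>
    have h1 : rootSeq826 c (m + 1) - rootSeq826 c n
        = (rootSeq826 c (m + 1) - rootSeq826 c m) + (rootSeq826 c m - rootSeq826 c n) := by ring
    rw [h1]
    refine le_trans (Valuation.map_add _ _ _) (max_le ?_ ih)
    refine le_trans (rootSeq_step826 c hc m) ?_
    exact pow_le_pow_right_of_le_one' hc.le (by omega)

theorem rootSeq_cauchy826 (c : k) (hc : Valued.v c < 1) : CauchySeq (rootSeq826 c) := by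
  rw [(Valued.hasBasis_uniformity k Γ₀).cauchySeq_iff]
  intro γ _
  set g : Γ₀ := MonoidWithZeroHom.ValueGroup₀.embedding γ.1 with hg
  have hγ : g ≠ 0 := by
    rw [hg]; exact (map_ne_zero _).mpr γ.ne_zero
  set a : ℤ := WithZero.log g with ha
  have hbound : ∀ n : ℕ, (-a).toNat ≤ n → Valued.v c ^ (n + 1) < g := by
    intro n hn
    have h1 : Valued.v c ^ (n + 1) ≤ WithZero.exp (-1 : ℤ) ^ (n + 1) :=
      pow_le_pow_left' (le_exp_neg_one826 hc) _
    have h2 : WithZero.exp (-1 : ℤ) ^ (n + 1) = WithZero.exp (((n + 1 : ℕ)) • (-1 : ℤ)) :=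
      (WithZero.exp_nsmul _ _).symm
    have h3 : WithZero.exp (((n + 1 : ℕ)) • (-1 : ℤ)) < g := by
      rw [← WithZero.exp_log hγ, WithZero.exp_lt_exp]
      have := Int.self_le_toNat (-a)
      simp only [nsmul_eq_mul, Nat.cast_add, Nat.cast_one]
      omega
    exact lt_of_le_of_lt (h1.trans h2.le) h3
  refine ⟨(-a).toNat, fun m hm n hn => ?_⟩
  show Valued.v.restrict (rootSeq826 c n - rootSeq826 c m) < γ.1
  rw [Valuation.restrict_lt_iff_lt_embedding]
  rcases le_total m n with hmn | hnm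
  · exact lt_of_le_of_lt (rootSeq_diff826 c hc m n hmn) (hbound m hm)
  · have h1 : rootSeq826 c n - rootSeq826 c m = -(rootSeq826 c m - rootSeq826 c n) := by ring
    rw [h1, Valuation.map_neg]
    exact lt_of_le_of_lt (rootSeq_diff826 c hc n m hnm) (hbound n hn)

/-- A fixed point of `Y ↦ Y² + c` for `v c < 1` in a complete valued field. -/
theorem exists_fix826 [CompleteSpace k] (c : k) (hc : Valued.v c < 1) :
    ∃ Y : k, Y = Y ^ 2 + c := by
  obtain ⟨Y, hY⟩ := cauchySeq_tendsto_of_complete (rootSeq_cauchy826 c hc)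
  refine ⟨Y, ?_⟩
  have h1 : Tendsto (fun n => rootSeq826 c (n + 1)) atTop (𝓝 Y) :=
    hY.comp (tendsto_add_atTop_nat 1)
  have h2 : Tendsto (fun n => rootSeq826 c (n + 1)) atTop (𝓝 (Y ^ 2 + c)) := by
    have : Tendsto (fun n => (rootSeq826 c n) ^ 2 + c) atTop (𝓝 (Y ^ 2 + c)) :=
      (hY.pow 2).add tendsto_const_nhds
    exact this
  exact tendsto_nhds_unique h1 h2

/-- **The root lemma.**  In a complete valued field, `X² - τ X + ν` with `v ν < 1 ≤ v τ` has a
root. -/
theorem exists_root826 [CompleteSpace k] (τ ν : k) (hν : Valued.v ν < 1)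
    (hτ : 1 ≤ Valued.v τ) : ∃ x : k, x ^ 2 - τ * x + ν = 0 := by
  have hτ0 : τ ≠ 0 := by
    intro h
    rw [h, Valuation.map_zero] at hτ
    exact absurd hτ (by simp)
  have hc : Valued.v (ν / τ ^ 2) < 1 := by
    rw [map_div₀, Valuation.map_pow]
    have hpos : 0 < Valued.v τ ^ 2 := by
      have : Valued.v τ ≠ 0 := by simpa using hτ0
      exact pow_pos (zero_lt_iff.mpr this) 2
    rw [div_lt_iff₀ hpos, one_mul]
    calc Valued.v ν < 1 := hν
      _ ≤ Valued.v τ ^ 2 := one_le_pow₀ hτ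
  obtain ⟨Y, hY⟩ := exists_fix826 (ν / τ ^ 2) hc
  refine ⟨τ * Y, ?_⟩
  have h1 : Y ^ 2 - Y + ν / τ ^ 2 = 0 := by linear_combination -hY
  have h2 : (τ * Y) ^ 2 - τ * (τ * Y) + ν = τ ^ 2 * (Y ^ 2 - Y + ν / τ ^ 2) := by
    field_simp
  rw [h2, h1, mul_zero]

end Root

/-! ## 5. The companion form -/

section Companion

variable {F : Type} [Field F]

/-- The matrix `P = [e₁ | t e₁]`. -/
def basisMat826 (t : Matrix (Fin 2) (Fin 2) F) : Matrix (Fin 2) (Fin 2) F :=
  !![1, t 0 0; 0, t 1 0]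

theorem basisMat_det826 (t : Matrix (Fin 2) (Fin 2) F) : (basisMat826 t).det = t 1 0 := by
  simp [basisMat826, Matrix.det_fin_two]

/-- If `g` commutes with `t` and `t₁₀ ≠ 0` then `g P = P (α + β Π)`, `P = [e₁ | t e₁]`,
`Π` the companion matrix of the characteristic polynomial of `t`, `β = g₁₀ / t₁₀`,
`α = g₀₀ - β t₀₀`. -/
theorem conj_companion826 (t g : Matrix (Fin 2) (Fin 2) F) (h10 : t 1 0 ≠ 0)
    (hc : g * t = t * g) :
    g * basisMat826 t = basisMat826 t *
      embMat t.trace t.det (g 0 0 - g 1 0 / t 1 0 * t 0 0) (g 1 0 / t 1 0) := by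
  obtain ⟨h1, h2⟩ := comm_entries826 t g h10 hc
  ext a b
  fin_cases a <;> fin_cases b
  · simp only [basisMat826, embMat, Matrix.mul_apply, Fin.sum_univ_two, Fin.zero_eta,
      Matrix.of_apply, Matrix.cons_val', Matrix.cons_val_zero, Matrix.cons_val_one,
      Matrix.cons_val_fin_one]
    ring
  · simp only [basisMat826, embMat, Matrix.mul_apply, Fin.sum_univ_two, Matrix.trace_fin_two,
      Matrix.det_fin_two, Fin.zero_eta, Fin.mk_one, Matrix.of_apply, Matrix.cons_val',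
      Matrix.cons_val_zero, Matrix.cons_val_one, Matrix.cons_val_fin_one]
    rw [h1]
    field_simp
    ring
  · simp only [basisMat826, embMat, Matrix.mul_apply, Fin.sum_univ_two, Matrix.trace_fin_two,
      Matrix.det_fin_two, Fin.zero_eta, Fin.mk_one, Matrix.of_apply, Matrix.cons_val',
      Matrix.cons_val_zero, Matrix.cons_val_one, Matrix.cons_val_fin_one]
    field_simp
    ring
  · simp only [basisMat826, embMat, Matrix.mul_apply, Fin.sum_univ_two, Matrix.trace_fin_two,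
      Matrix.det_fin_two, Fin.mk_one, Matrix.of_apply, Matrix.cons_val',
      Matrix.cons_val_zero, Matrix.cons_val_one, Matrix.cons_val_fin_one]
    rw [h2]
    field_simp
    ring

/-- An eigenvalue of `t` gives an eigenvalue of every `g` commuting with `t` (`t₁₀ ≠ 0`). -/
theorem eigen_transfer826 (t g : Matrix (Fin 2) (Fin 2) F) (h10 : t 1 0 ≠ 0)
    (hc : g * t = t * g) (x : F) (hx : x ^ 2 - t.trace * x + t.det = 0) :
    ∃ y : F, y ^ 2 - g.trace * y + g.det = 0 := by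
  obtain ⟨h1, h2⟩ := comm_entries826 t g h10 hc
  refine ⟨g 0 0 - g 1 0 / t 1 0 * t 0 0 + g 1 0 / t 1 0 * x, ?_⟩
  rw [Matrix.trace_fin_two, Matrix.det_fin_two] at hx ⊢
  rw [h1, h2]
  field_simp
  linear_combination (g 1 0) ^ 2 * hx

/-- No eigenvalue: the lower left entry does not vanish. -/
theorem entry_ne_zero826 (g : Matrix (Fin 2) (Fin 2) F)
    (h : ¬ ∃ x : F, x ^ 2 - g.trace * x + g.det = 0) : g 1 0 ≠ 0 := by
  intro h0
  apply h
  refine ⟨g 0 0, ?_⟩
  rw [Matrix.trace_fin_two, Matrix.det_fin_two, h0]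
  ring

end Companion

/-! ## 6. The leaf -/

/-- In `ℤᵐ⁰`, `exp (-1)` is not a square. -/
theorem sq_ne_exp_neg_one826 (x : Γ₀) : x ^ 2 ≠ WithZero.exp (-1 : ℤ) := by
  intro h
  have hx : x ≠ 0 := by
    rintro rfl
    rw [zero_pow two_ne_zero] at h
    exact WithZero.exp_ne_zero h.symm
  rw [← WithZero.exp_log hx, ← WithZero.exp_nsmul, WithZero.exp_inj] at h
  simp only [nsmul_eq_mul, Nat.cast_ofNat] at h
  omega

/-- **T6.14a `EllReduceC`**, VERBATIM. -/
theorem ellReduceC826 : EllReduceC := by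
  intro k k' _ _ _ _ q l i s hk hk' hext δ γ hreg hne hram hconj
  have : CompleteSpace k := hk.complete
  obtain ⟨t, htc, htv⟩ := hram
  have hcomm : (γ : Matrix (Fin 2) (Fin 2) k) * (t : Matrix (Fin 2) (Fin 2) k)
      = (t : Matrix (Fin 2) (Fin 2) k) * (γ : Matrix (Fin 2) (Fin 2) k) := by
    have := congrArg (fun g : GL (Fin 2) k => (g : Matrix (Fin 2) (Fin 2) k)) htc
    simpa using this.symm
  have hne' : ¬ ∃ x : k, x ^ 2 - (γ : Matrix (Fin 2) (Fin 2) k).trace * x
      + (γ : Matrix (Fin 2) (Fin 2) k).det = 0 := hne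
  have hG10 : (γ : Matrix (Fin 2) (Fin 2) k) 1 0 ≠ 0 := entry_ne_zero826 _ hne'
  -- `t` is not scalar
  have hT10 : (t : Matrix (Fin 2) (Fin 2) k) 1 0 ≠ 0 := by
    intro h0
    obtain ⟨h1, h2⟩ := comm_entries826 _ _ hG10 hcomm.symm
    rw [h0] at h1 h2
    simp only [zero_div, zero_mul, add_zero] at h1 h2
    have hdet : (t : Matrix (Fin 2) (Fin 2) k).det = ((t : Matrix (Fin 2) (Fin 2) k) 0 0) ^ 2 := by
      rw [Matrix.det_fin_two, h1, h2]; ring
    rw [hdet, Valuation.map_pow] at htv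
    exact sq_ne_exp_neg_one826 _ htv
  set τ : k := (t : Matrix (Fin 2) (Fin 2) k).trace with hτ
  set ν : k := (t : Matrix (Fin 2) (Fin 2) k).det with hν
  set β : k := (γ : Matrix (Fin 2) (Fin 2) k) 1 0 / (t : Matrix (Fin 2) (Fin 2) k) 1 0 with hβ
  set α : k := (γ : Matrix (Fin 2) (Fin 2) k) 0 0 - β * (t : Matrix (Fin 2) (Fin 2) k) 0 0 with hα
  have hβ0 : β ≠ 0 := div_ne_zero hG10 hT10
  -- `v τ < 1`
  have hvτ : Valued.v τ < 1 := by
    by_contra hcon
    rw [not_lt] at hcon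
    have hν1 : Valued.v ν < 1 := by
      rw [htv, ← WithZero.exp_zero, WithZero.exp_lt_exp]; omega
    obtain ⟨x, hx⟩ := exists_root826 τ ν hν1 hcon
    exact hne' (eigen_transfer826 _ _ hT10 hcomm x hx)
  -- the base change `P`
  have hPdet : (basisMat826 (t : Matrix (Fin 2) (Fin 2) k)).det ≠ 0 := by
    rw [basisMat_det826]; exact hT10
  set P : GL (Fin 2) k := Matrix.GeneralLinearGroup.mkOfDetNeZero _ hPdet with hP
  have hPval : (P : Matrix (Fin 2) (Fin 2) k) = basisMat826 (t : Matrix (Fin 2) (Fin 2) k) := rfl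
  set γ₀ : GL (Fin 2) k := P⁻¹ * γ * P with hγ₀
  have hγ₀eq : (γ₀ : Matrix (Fin 2) (Fin 2) k) = embMat τ ν α β := by
    have key := conj_companion826 (t : Matrix (Fin 2) (Fin 2) k) (γ : Matrix (Fin 2) (Fin 2) k)
      hT10 hcomm
    have h1 : ((P⁻¹ * γ * P : GL (Fin 2) k) : Matrix (Fin 2) (Fin 2) k)
        = ((P⁻¹ : GL (Fin 2) k) : Matrix (Fin 2) (Fin 2) k)
          * ((γ : Matrix (Fin 2) (Fin 2) k) * (P : Matrix (Fin 2) (Fin 2) k)) := by
      rw [mul_assoc]; rfl
    rw [hγ₀, h1, hPval, key, ← hPval, ← Matrix.mul_assoc]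
    have h2 : ((P⁻¹ : GL (Fin 2) k) : Matrix (Fin 2) (Fin 2) k) * (P : Matrix (Fin 2) (Fin 2) k)
        = 1 := by
      simp
    rw [h2, Matrix.one_mul]
  have hconjγ : IsConj γ γ₀ := isConj_iff.mpr ⟨P⁻¹, by rw [hγ₀, inv_inv]⟩
  -- the twisted side
  obtain ⟨c, hc⟩ := isConj_iff.mp hconj
  set x : GL (Fin 2) k' := c⁻¹ * Matrix.GeneralLinearGroup.map i P with hx
  set δ₀ : GL (Fin 2) k' := x⁻¹ * δ * glAut s x with hδ₀
  have hiter : ∀ g : GL (Fin 2) k', (glAut s)^[l] g = g :=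
    fun g => glAut_iterate_eq826 s l hext.cyc.order g
  have hmapγ₀ : Matrix.GeneralLinearGroup.map i γ₀ = x⁻¹ * twNorm s l δ * x := by
    have h1 : twNorm s l δ = c⁻¹ * Matrix.GeneralLinearGroup.map i γ * c := by
      rw [← hc]; group
    rw [h1, hx, hγ₀]
    simp only [map_mul, map_inv]
    group
  have hnorm : twNorm s l δ₀ = Matrix.GeneralLinearGroup.map i γ₀ := by
    rw [hmapγ₀]
    show twN (glAut s) l (x⁻¹ * δ * glAut s x) = x⁻¹ * twN (glAut s) l δ * x
    rw [twN_twConj826, hiter]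
  have hfix : glAut s (Matrix.GeneralLinearGroup.map i γ₀) = Matrix.GeneralLinearGroup.map i γ₀ :=
    glAut_map826 i s hext.cyc.fix_i γ₀
  have hcommδ : δ₀ * Matrix.GeneralLinearGroup.map i γ₀
      = Matrix.GeneralLinearGroup.map i γ₀ * δ₀ := by
    have h1 : twN (glAut s) (l + 1) δ₀ = δ₀ * glAut s (twN (glAut s) l δ₀) := rfl
    have h2 := twN_succ826 (glAut s) l δ₀
    rw [h1, hiter] at h2
    have h3 : twN (glAut s) l δ₀ = Matrix.GeneralLinearGroup.map i γ₀ := hnorm
    rw [h3, hfix] at h2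
    exact h2
  have hmapval : ((Matrix.GeneralLinearGroup.map i γ₀ : GL (Fin 2) k') :
      Matrix (Fin 2) (Fin 2) k') = embMat (i τ) (i ν) (i α) (i β) := by
    ext a b
    rw [Matrix.GeneralLinearGroup.map_apply, hγ₀eq]
    fin_cases a <;> fin_cases b <;> simp [embMat]
  have hiβ : i β ≠ 0 := by
    rw [Ne, map_eq_zero]; exact hβ0
  have hcommval : (δ₀ : Matrix (Fin 2) (Fin 2) k') * embMat (i τ) (i ν) (i α) (i β)
      = embMat (i τ) (i ν) (i α) (i β) * (δ₀ : Matrix (Fin 2) (Fin 2) k') := by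
    rw [← hmapval]
    have := congrArg (fun g : GL (Fin 2) k' => (g : Matrix (Fin 2) (Fin 2) k')) hcommδ
    simpa using this
  have hδ₀eq := comm_embMat826 (i τ) (i ν) (i α) (i β) hiβ _ hcommval
  exact ⟨τ, ν, α, β, (δ₀ : Matrix (Fin 2) (Fin 2) k') 0 0, (δ₀ : Matrix (Fin 2) (Fin 2) k') 1 0,
    γ₀, δ₀, ⟨htv, hvτ, hβ0, hγ₀eq, hδ₀eq, hnorm⟩, hconjγ, ⟨x, rfl⟩⟩

end Fermat.Agent.LT.T6.H826

end
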